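import Fermat.Agent.Brownian.Covariance
import Mathlib.Probability.BrownianMotion.Basic
import Mathlib.Probability.Distributions.Gaussian.CharFun
import Mathlib.Probability.Distributions.Gaussian.Fernique
import Mathlib.Probability.Moments.Basic
import Mathlib.Probability.ProductMeasure
import Mathlib.MeasureTheory.Integral.Pi
import Mathlib.Analysis.Normed.Group.FunctionSeries

/-!
# The construction of Lévy and Ciesielski

Standard normal weights on the Faber–Schauder system give a series which converges uniformly on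
bounded intervals almost surely; the characteristic functions of its partial sums tend to those of
the Brownian finite dimensional laws.
-/

set_option autoImplicit false

noncomputable section

namespace FA.Brownian

open MeasureTheory ProbabilityTheory Filter Finset Topology
open scoped NNReal ENNReal

/-- The law of the weights. -/
def noiseLaw : Measure (ℕ × ℕ → ℝ) := Measure.infinitePi fun _ => gaussianReal 0 1

instance : IsProbabilityMeasure noiseLaw :=
  inferInstanceAs (IsProbabilityMeasure (Measure.infinitePi fun _ : ℕ × ℕ => gaussianReal 0 1))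

/-- The height of the tents of one level. -/
def scale (n : ℕ) : ℝ := √((1 / 2) ^ n) / 2

/-- The functions of the system: the ramps in row `0`, then the tents. -/
def coef : ℕ × ℕ → ℝ → ℝ
  | (0, m), t => ramp (t - m)
  | (n + 1, k), t => scale n * tent (2 ^ n * t - k)

/-- The ramps. -/
def base (t : ℝ) (ω : ℕ × ℕ → ℝ) : ℝ := ∑ m ∈ range (⌊t⌋₊ + 1), coef (0, m) t * ω (0, m)

/-- One level of tents. -/
def level (n : ℕ) (t : ℝ) (ω : ℕ × ℕ → ℝ) : ℝ :=
  ∑ k ∈ range (⌊2 ^ n * t⌋₊ + 1), coef (n + 1, k) t * ω (n + 1, k)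

/-- The partial sums. -/
def partialSum (N : ℕ) (t : ℝ) (ω : ℕ × ℕ → ℝ) : ℝ := base t ω + ∑ n ∈ range N, level n t ω

/-- **The process.** -/
def brownian (t : ℝ≥0) (ω : ℕ × ℕ → ℝ) : ℝ := base t ω + ∑' n, level n t ω

theorem coef_zero_eq {t : ℝ} {m : ℕ} (h : ⌊t⌋₊ < m) (ht : 0 ≤ t) : coef (0, m) t = 0 :=
  ramp_eq_zero (by linarith [(Nat.floor_lt ht).1 h])

theorem coef_succ_eq {t : ℝ} {n k : ℕ} (h : k ≠ ⌊2 ^ n * t⌋₊) (ht : 0 ≤ t) :
    coef (n + 1, k) t = 0 := by
  rw [coef, tent_sub_eq_zero (by positivity) h, mul_zero]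

theorem base_eq {t : ℝ} (ht : 0 ≤ t) {M : ℕ} (hM : ⌊t⌋₊ < M) (ω : ℕ × ℕ → ℝ) :
    base t ω = ∑ m ∈ range M, coef (0, m) t * ω (0, m) :=
  sum_subset (range_subset_range.2 hM) fun m _ hm => by
    rw [coef_zero_eq (lt_of_lt_of_le (Nat.lt_succ_self _)
      (not_lt.1 fun h => hm (mem_range.2 h))) ht,
      zero_mul]

theorem level_eq {t : ℝ} (ht : 0 ≤ t) {n M : ℕ} (hM : ⌊2 ^ n * t⌋₊ < M) (ω : ℕ × ℕ → ℝ) :
    level n t ω = ∑ k ∈ range M, coef (n + 1, k) t * ω (n + 1, k) :=
  sum_subset (range_subset_range.2 hM) fun k _ hk => by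
    rw [coef_succ_eq (fun h => hk (mem_range.2 (h ▸ Nat.lt_succ_self _))) ht, zero_mul]

theorem floor_mul_lt {t : ℝ} (ht : 0 ≤ t) {M n N : ℕ} (hM : ⌊t⌋₊ < M) (hn : n ≤ N) :
    ⌊2 ^ n * t⌋₊ < M * 2 ^ N := by
  rw [Nat.floor_lt (by positivity)]
  have h1 : t < M := by
    have := Nat.lt_floor_add_one t
    have : ((⌊t⌋₊ + 1 : ℕ) : ℝ) ≤ M := by exact_mod_cast hM
    push_cast at this
    linarith
  push_cast
  calc (2 : ℝ) ^ n * t ≤ 2 ^ N * t :=
        mul_le_mul_of_nonneg_right (pow_le_pow_right₀ one_le_two hn) ht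
    _ < 2 ^ N * M := mul_lt_mul_of_pos_left h1 (by positivity)
    _ = M * 2 ^ N := mul_comm _ _

/-- The indices of a partial sum. -/
def block (M N : ℕ) : Finset (ℕ × ℕ) := range (N + 1) ×ˢ range (M * 2 ^ N)

theorem partialSum_eq {t : ℝ} (ht : 0 ≤ t) {M : ℕ} (hM : ⌊t⌋₊ < M) (N : ℕ) (ω : ℕ × ℕ → ℝ) :
    partialSum N t ω = ∑ j ∈ block M N, coef j t * ω j := by
  rw [partialSum, block, sum_product, sum_range_succ', add_comm]
  congr 1
  · exact sum_congr rfl fun n hn => level_eq ht (floor_mul_lt ht hM (mem_range.1 hn).le) ω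
  · exact base_eq ht (by simpa using floor_mul_lt ht hM (Nat.zero_le N)) ω

theorem sum_ramp_ramp {s t : ℝ} (hs : 0 ≤ s) (hst : s ≤ t) {K : ℕ} (hK : ⌊s⌋₊ < K) :
    ∑ m ∈ range K, ramp (s - m) * ramp (t - m) = s - bridge s t := by
  rw [← sum_subset (range_subset_range.2 hK) fun m _ hm => by
    rw [ramp_eq_zero (x := s - m) (by
      linarith [(Nat.floor_lt hs).1 (lt_of_lt_of_le (Nat.lt_succ_self _)
        (not_lt.1 fun h => hm (mem_range.2 h)))]), zero_mul], sum_range_succ]
  have ht : 0 ≤ t := hs.trans hst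
  have hone : ∀ m ∈ range ⌊s⌋₊, ramp (s - m) * ramp (t - m) = 1 := fun m hm => by
    have : ((m + 1 : ℕ) : ℝ) ≤ ⌊s⌋₊ := by exact_mod_cast mem_range.1 hm
    push_cast at this
    have := Nat.floor_le hs
    rw [ramp_eq_one (by linarith), ramp_eq_one (by linarith), one_mul]
  have hs0 := Nat.floor_le hs
  have hs1 := Nat.lt_floor_add_one s
  rw [sum_congr rfl hone, sum_const, card_range, nsmul_eq_mul, mul_one,
    ramp_eq_self (by linarith) (by linarith), bridge]
  split_ifs with h
  · have := Nat.floor_le ht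
    have := Nat.lt_floor_add_one t
    rw [← h] at *
    rw [ramp_eq_self (by linarith) (by linarith), min_eq_left (by linarith)]
    ring
  · have h1 : ⌊s⌋₊ + 1 ≤ ⌊t⌋₊ := lt_of_le_of_ne (Nat.floor_le_floor hst) h
    have h2 : ((⌊s⌋₊ + 1 : ℕ) : ℝ) ≤ t := le_trans (by exact_mod_cast h1) (Nat.floor_le ht)
    push_cast at h2
    rw [ramp_eq_one (by linarith)]
    ring

theorem bridge_comm (x y : ℝ) : bridge x y = bridge y x := by
  simp only [bridge]
  by_cases h : ⌊x⌋₊ = ⌊y⌋₊
  · rw [if_pos h, if_pos h.symm, min_comm, mul_comm]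
  · rw [if_neg h, if_neg (Ne.symm h)]

theorem scale_sq (n : ℕ) : scale n * scale n = (1 / 2) ^ n / 4 := by
  rw [scale, div_mul_div_comm, Real.mul_self_sqrt (by positivity)]
  norm_num

/-- **The covariance of a partial sum.** -/
theorem sum_coef_mul {s t : ℝ} (hs : 0 ≤ s) (ht : 0 ≤ t) {M : ℕ} (hsM : ⌊s⌋₊ < M) (htM : ⌊t⌋₊ < M)
    (N : ℕ) : ∑ j ∈ block M N, coef j s * coef j t =
      min s t - (1 / 2) ^ N * bridge (2 ^ N * s) (2 ^ N * t) := by
  rw [block, sum_product, sum_range_succ', add_comm]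
  have hbase : ∑ m ∈ range (M * 2 ^ N), coef (0, m) s * coef (0, m) t = min s t - bridge s t := by
    rcases le_total s t with h | h
    · rw [min_eq_left h]
      exact sum_ramp_ramp hs h (by simpa using floor_mul_lt hs hsM (Nat.zero_le N))
    · rw [min_eq_right h, bridge_comm]
      simp only [mul_comm (coef _ s)]
      exact sum_ramp_ramp ht h (by simpa using floor_mul_lt ht htM (Nat.zero_le N))
  have hlev : ∀ n, n ≤ N → ∑ k ∈ range (M * 2 ^ N), coef (n + 1, k) s * coef (n + 1, k) t =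
      (1 / 2) ^ n * bridge (2 ^ n * s) (2 ^ n * t) -
        (1 / 2) ^ (n + 1) * bridge (2 ^ (n + 1) * s) (2 ^ (n + 1) * t) := by
    intro n hn
    have e : ∀ k : ℕ, coef (n + 1, k) s * coef (n + 1, k) t =
        (1 / 2) ^ n / 4 * (tent (2 ^ n * s - k) * tent (2 ^ n * t - k)) := fun k => by
      rw [← scale_sq, coef, coef]
      ring
    simp only [e, ← mul_sum]
    rw [sum_tent_tent (by positivity) (by positivity) (floor_mul_lt hs hsM hn),
      bridge_eq (x := 2 ^ n * s) (y := 2 ^ n * t) (by positivity) (by positivity), pow_succ,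
      pow_succ' (2 : ℝ), mul_assoc 2 ((2 : ℝ) ^ n), mul_assoc 2 ((2 : ℝ) ^ n)]
    ring
  rw [hbase, sum_congr rfl fun n hn => hlev n (mem_range.1 hn).le,
    sum_range_sub' (fun n => (1 / 2 : ℝ) ^ n * bridge (2 ^ n * s) (2 ^ n * t))]
  simp

/-- A standard normal weight exceeds `a` with exponentially small probability. -/
theorem measure_weight_ge (j : ℕ × ℕ) (a : ℝ) :
    noiseLaw {ω | a ≤ |ω j|} ≤ ENNReal.ofReal (2 * Real.exp (2 - 2 * a)) := by
  have hmap : noiseLaw.map (fun ω => ω j) = gaussianReal 0 1 := Measure.infinitePi_map_eval _ j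
  have hint : ∀ c : ℝ, Integrable (fun ω => Real.exp (c * ω j)) noiseLaw := fun c =>
    (measurePreserving_eval_infinitePi (μ := fun _ : ℕ × ℕ => gaussianReal 0 1) j).integrable_comp
      (by fun_prop) |>.2 (integrable_exp_mul_gaussianReal c)
  have hmgf : ∀ c : ℝ, mgf (fun ω => ω j) noiseLaw c = Real.exp (c ^ 2 / 2) := fun c => by
    rw [mgf_gaussianReal hmap]
    norm_num
  have h1 : noiseLaw.real {ω | a ≤ ω j} ≤ Real.exp (2 - 2 * a) := by
    refine (measure_ge_le_exp_mul_mgf a zero_le_two (hint 2)).trans_eq ?_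
    rw [hmgf, ← Real.exp_add]
    ring_nf
  have h2 : noiseLaw.real {ω | ω j ≤ -a} ≤ Real.exp (2 - 2 * a) := by
    refine (measure_le_le_exp_mul_mgf (-a) (by norm_num : (-2 : ℝ) ≤ 0) (hint (-2))).trans_eq ?_
    rw [hmgf, ← Real.exp_add]
    ring_nf
  rw [← ofReal_measureReal (measure_ne_top _ _)]
  refine ENNReal.ofReal_le_ofReal (((measureReal_mono
    (s₁ := {ω : ℕ × ℕ → ℝ | a ≤ |ω j|})
    (s₂ := {ω : ℕ × ℕ → ℝ | a ≤ ω j} ∪ {ω | ω j ≤ -a}) fun ω hω => ?_).trans
    (measureReal_union_le _ _)).trans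
    ?_)
  · rcases le_abs.1 (show a ≤ |ω j| from hω) with h | h
    · exact Or.inl h
    · exact Or.inr (show ω j ≤ -a by linarith)
  · linarith

/-- The weights of one level that are used before time `M` are eventually small. -/
theorem ae_eventually_small (M : ℕ) :
    ∀ᵐ ω ∂noiseLaw, ∀ᶠ n : ℕ in atTop, ∀ k < M * 2 ^ n, |ω (n + 1, k)| < (n : ℝ) := by
  have hsum : ∑' n : ℕ, noiseLaw
      (⋃ k ∈ range (M * 2 ^ n), {ω : ℕ × ℕ → ℝ | (n : ℝ) ≤ |ω (n + 1, k)|}) ≠ ∞ := by
    have hlt : 2 * Real.exp (-2) < 1 := by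
      have h := Real.add_one_le_exp (2 : ℝ)
      rw [Real.exp_neg, mul_inv_lt_iff₀ (Real.exp_pos 2)]
      linarith
    refine ne_top_of_le_ne_top (ENNReal.ofReal_ne_top (r := ∑' n : ℕ,
      2 * M * Real.exp 2 * (2 * Real.exp (-2)) ^ n)) ?_
    rw [ENNReal.ofReal_tsum_of_nonneg (fun n => by positivity)
      ((summable_geometric_of_lt_one (by positivity) hlt).mul_left _)]
    refine ENNReal.tsum_le_tsum fun n => ((measure_biUnion_finset_le _ _).trans
      (Finset.sum_le_card_nsmul _ _ _ fun k _ => measure_weight_ge _ _)).trans (le_of_eq ?_)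
    rw [card_range, nsmul_eq_mul, ← ENNReal.ofReal_natCast, ← ENNReal.ofReal_mul (by positivity)]
    congr 1
    push_cast
    rw [mul_pow, ← Real.exp_nat_mul, show (2 : ℝ) - 2 * n = 2 + n * -2 by ring, Real.exp_add]
    ring
  filter_upwards [ae_eventually_notMem hsum] with ω hω
  filter_upwards [hω] with n hn k hk
  simp only [Set.mem_iUnion, mem_range, not_exists] at hn
  exact not_le.1 (hn k hk)

theorem abs_level_le {t : ℝ} (ht : 0 ≤ t) {M : ℕ} (htM : ⌊t⌋₊ < M) (n : ℕ) (ω : ℕ × ℕ → ℝ) :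
    |level n t ω| ≤ scale n *
      ((n : ℝ) + ∑ k ∈ range (M * 2 ^ n),
        if (n : ℝ) ≤ |ω (n + 1, k)| then |ω (n + 1, k)| else 0) := by
  have hk := floor_mul_lt ht htM (le_refl n)
  have e : level n t ω =
      scale n * (tent (2 ^ n * t - ⌊2 ^ n * t⌋₊) * ω (n + 1, ⌊2 ^ n * t⌋₊)) := by
    rw [level_eq ht hk, ← sum_tent_mul (by positivity) hk (fun k => ω (n + 1, k)), mul_sum]
    exact sum_congr rfl fun k _ => by rw [coef]; ring
  have hs : 0 ≤ scale n := by rw [scale]; positivity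
  rw [e, abs_mul, abs_of_nonneg hs, abs_mul, abs_of_nonneg (tent_nonneg _)]
  refine mul_le_mul_of_nonneg_left ((mul_le_of_le_one_left (abs_nonneg _) (tent_le_one _)).trans ?_)
    hs
  set w := |ω (n + 1, ⌊2 ^ n * t⌋₊)|
  have hnn : ∀ k ∈ range (M * 2 ^ n),
      (0 : ℝ) ≤ if (n : ℝ) ≤ |ω (n + 1, k)| then |ω (n + 1, k)| else 0 := fun k _ => by
    split_ifs <;> positivity
  by_cases hw : (n : ℝ) ≤ w
  · refine le_add_of_nonneg_of_le n.cast_nonneg ?_
    refine le_of_eq_of_le ?_ (single_le_sum hnn (mem_range.2 hk))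
    rw [if_pos hw]
  · exact (not_le.1 hw).le.trans (le_add_of_nonneg_right (sum_nonneg hnn))

/-- Almost surely the series converges uniformly on bounded intervals. -/
theorem ae_good : ∀ᵐ ω ∂noiseLaw, ∀ M : ℕ, ∃ u : ℕ → ℝ, Summable u ∧
    ∀ n, ∀ t : ℝ, 0 ≤ t → ⌊t⌋₊ < M → |level n t ω| ≤ u n := by
  filter_upwards [ae_all_iff.2 ae_eventually_small] with ω hω M
  refine ⟨_, ?_, fun n t ht htM => abs_level_le ht htM n ω⟩
  have hg : Summable fun n : ℕ => scale n * n := by
    have hr : ‖√(1 / 2 : ℝ)‖ < 1 := by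
      rw [Real.norm_of_nonneg (Real.sqrt_nonneg _), Real.sqrt_lt' one_pos]
      norm_num
    refine ((summable_pow_mul_geometric_of_norm_lt_one 1 hr).mul_right (1 / 2)).congr fun n => ?_
    rw [pow_one, scale, Real.sqrt_eq_rpow, Real.sqrt_eq_rpow, ← Real.rpow_natCast (1 / 2 : ℝ) n,
      ← Real.rpow_mul (by norm_num), ← Real.rpow_natCast ((1 / 2 : ℝ) ^ (1 / 2 : ℝ)) n,
      ← Real.rpow_mul (by norm_num), mul_comm (n : ℝ) (1 / 2)]
    ring
  refine hg.congr_atTop ?_
  filter_upwards [hω M] with n hn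
  rw [sum_eq_zero fun k hk => if_neg (not_le.2 (hn k (mem_range.1 hk))), add_zero]

theorem continuous_partial (M n : ℕ) (ω : ℕ × ℕ → ℝ) :
    Continuous fun t : ℝ≥0 => ∑ k ∈ range M, coef (n, k) t * ω (n, k) := by
  refine continuous_finsetSum _ fun k _ => Continuous.mul ?_ continuous_const
  cases n
  · exact continuous_ramp.comp (NNReal.continuous_coe.sub continuous_const)
  · exact continuous_const.mul (continuous_tent.comp
      ((continuous_const.mul NNReal.continuous_coe).sub continuous_const))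

/-- **Continuity of the paths.** -/
theorem ae_continuous : ∀ᵐ ω ∂noiseLaw, Continuous fun t => brownian t ω := by
  filter_upwards [ae_good] with ω hω
  refine continuous_iff_continuousAt.2 fun a => ?_
  set M := ⌊(a : ℝ)⌋₊ + 1
  have ha : a ∈ Set.Iio (M : ℝ≥0) := by
    have := Nat.lt_floor_add_one (a : ℝ)
    rw [Set.mem_Iio, ← NNReal.coe_lt_coe]
    simpa [M] using this
  refine ContinuousOn.continuousAt ?_ (Iio_mem_nhds ha)
  have hfloor : ∀ t ∈ Set.Iio (M : ℝ≥0), ⌊(t : ℝ)⌋₊ < M := fun t ht =>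
    (Nat.floor_lt t.coe_nonneg).2 (by exact_mod_cast Set.mem_Iio.1 ht)
  obtain ⟨u, hu, hb⟩ := hω M
  refine ContinuousOn.add ?_ (continuousOn_tsum (fun n => ?_) hu fun n t ht => ?_)
  · exact (continuous_partial M 0 ω).continuousOn.congr fun t ht =>
      base_eq t.coe_nonneg (hfloor t ht) ω
  · exact (continuous_partial (M * 2 ^ n) (n + 1) ω).continuousOn.congr fun t ht =>
      level_eq t.coe_nonneg (floor_mul_lt t.coe_nonneg (hfloor t ht) le_rfl) ω
  · exact hb n t t.coe_nonneg (hfloor t ht)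

theorem ae_tendsto (t : ℝ≥0) :
    ∀ᵐ ω ∂noiseLaw, Tendsto (fun N => partialSum N t ω) atTop (𝓝 (brownian t ω)) := by
  filter_upwards [ae_good] with ω hω
  obtain ⟨u, hu, hb⟩ := hω (⌊(t : ℝ)⌋₊ + 1)
  have hs : Summable fun n => level n t ω :=
    .of_norm_bounded hu fun n => hb n t t.coe_nonneg (Nat.lt_succ_self _)
  exact hs.hasSum.tendsto_sum_nat.const_add _

theorem measurable_partialSum (N : ℕ) (t : ℝ) : Measurable fun ω => partialSum N t ω := by
  unfold partialSum base level
  fun_prop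

theorem aemeasurable_brownian (t : ℝ≥0) : AEMeasurable (brownian t) noiseLaw :=
  aemeasurable_of_tendsto_metrizable_ae atTop (fun N => (measurable_partialSum N t).aemeasurable)
    (ae_tendsto t)

/-- The characteristic function of a finite combination of the weights. -/
theorem integral_exp_weights (F : Finset (ℕ × ℕ)) (c : ℕ × ℕ → ℝ) :
    ∫ ω, Complex.exp ((∑ j ∈ F, c j * ω j : ℝ) * Complex.I) ∂noiseLaw =
      Complex.exp (-((∑ j ∈ F, c j * c j : ℝ)) / 2) := by
  have e : ∀ ω : ℕ × ℕ → ℝ, Complex.exp ((∑ j ∈ F, c j * ω j : ℝ) * Complex.I) =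
      (fun y : F → ℝ => ∏ j : F, Complex.exp ((c j.1 : ℂ) * (y j) * Complex.I)) (F.restrict ω) :=
    fun ω => by
      show _ = ∏ j : F, Complex.exp ((c j.1 : ℂ) * (ω j.1) * Complex.I)
      rw [← Complex.exp_sum, Complex.ofReal_sum, sum_mul, ← sum_coe_sort F]
      simp
  refine ((integral_congr_ae (ae_of_all _ e)).trans (integral_restrict_infinitePi
    (μ := fun _ : ℕ × ℕ => gaussianReal 0 1)
    (f := fun y : F → ℝ => ∏ j : F, Complex.exp ((c j.1 : ℂ) * (y j) * Complex.I))
    (Continuous.aestronglyMeasurable (by fun_prop)))).trans ?_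
  rw [integral_fintype_prod_eq_prod (f := fun (j : F) (y : ℝ) =>
      Complex.exp ((c j.1 : ℂ) * y * Complex.I))]
  have h1 : ∀ j : F, ∫ y, Complex.exp ((c j.1 : ℂ) * y * Complex.I) ∂gaussianReal 0 1 =
      Complex.exp (-((c j.1 * c j.1 : ℝ)) / 2) := fun j => by
    rw [← charFun_apply_real, charFun_gaussianReal]
    congr 1
    push_cast
    ring
  rw [prod_congr rfl fun j _ => h1 j, ← Complex.exp_sum,
    sum_coe_sort F (fun j => -((c j * c j : ℝ) : ℂ) / 2), Complex.ofReal_sum, ← sum_div,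
    sum_neg_distrib]

/-- **The finite dimensional laws.** -/
theorem hasLaw_brownian (I : Finset ℝ≥0) :
    HasLaw (fun ω => I.restrict (brownian · ω)) (BrownianReal.projectiveFamily I) noiseLaw := by
  have hm : AEMeasurable (fun ω => I.restrict (brownian · ω)) noiseLaw :=
    aemeasurable_pi_lambda _ fun i => aemeasurable_brownian i.1
  refine ⟨hm, ?_⟩
  have := Measure.isProbabilityMeasure_map (μ := noiseLaw) hm
  refine Measure.ext_of_charFunDual (funext fun L => ?_)
  set u : I → ℝ := fun i => L (Pi.single i 1)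
  have hL : ∀ x : I → ℝ, L x = ∑ i, u i * x i := fun x => by
    conv_lhs => rw [pi_eq_sum_univ' x]
    simp [u, mul_comm]
  set V := ∑ i : I, ∑ j : I, u i * u j * ((min i.1 j.1 : ℝ≥0) : ℝ)
  have hrhs : charFunDual (BrownianReal.projectiveFamily I) L = Complex.exp (-(V : ℂ) / 2) := by
    rw [IsGaussian.charFunDual_eq_of_integral_eq_zero (BrownianReal.integral_id_projectiveFamily' I)
      L]
    congr
    rw [show (L : (I → ℝ) → ℝ) = fun x => ∑ i, u i * x i from funext hL, variance_fun_sum]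
    · exact sum_congr rfl fun i _ => sum_congr rfl fun j _ => by
        rw [covariance_const_mul_left, covariance_const_mul_right,
          BrownianReal.covariance_eval_projectiveFamily]
        ring
    · exact fun i => (IsGaussian.hasGaussianLaw_id.eval i).memLp_two.const_mul _
  rw [hrhs, charFunDual_apply, integral_map hm (by fun_prop)]
  obtain ⟨M, hM⟩ : ∃ M, ∀ i : I, ⌊(i.1 : ℝ)⌋₊ < M :=
    ⟨(univ.sup fun i : I => ⌊(i.1 : ℝ)⌋₊) + 1, fun i =>
      Nat.lt_succ_of_le (le_sup (f := fun i : I => ⌊(i.1 : ℝ)⌋₊) (mem_univ i))⟩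
  set W : ℕ → ℝ := fun N => ∑ j ∈ block M N,
    (∑ i : I, u i * coef j i.1) * (∑ i : I, u i * coef j i.1)
  have hN : ∀ N, ∫ ω, Complex.exp ((L fun i : I => partialSum N i.1 ω : ℝ) * Complex.I) ∂noiseLaw =
      Complex.exp (-(W N : ℂ) / 2) := fun N => by
    have e : ∀ ω, (L fun i : I => partialSum N i.1 ω) =
        ∑ j ∈ block M N, (∑ i : I, u i * coef j i.1) * ω j := fun ω => by
      simp only [hL, partialSum_eq (NNReal.coe_nonneg _) (hM _), mul_sum, sum_mul]
      rw [sum_comm]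
      exact sum_congr rfl fun j _ => sum_congr rfl fun i _ => by ring
    simp only [e]
    exact integral_exp_weights _ fun j => ∑ i : I, u i * coef j i.1
  have hW : Tendsto W atTop (𝓝 V) := by
    have e : ∀ N, W N = ∑ i : I, ∑ i' : I, u i * u i' *
        (((min i.1 i'.1 : ℝ≥0) : ℝ) -
          (1 / 2) ^ N * bridge (2 ^ N * (i.1 : ℝ)) (2 ^ N * (i'.1 : ℝ))) := fun N => by
      simp only [NNReal.coe_min, ← sum_coef_mul (NNReal.coe_nonneg _) (NNReal.coe_nonneg _) (hM _)
        (hM _) N, W]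
      simp only [sum_mul_sum]
      simp only [mul_sum]
      rw [sum_comm]
      refine sum_congr rfl fun i _ => ?_
      rw [sum_comm]
      exact sum_congr rfl fun i' _ => sum_congr rfl fun j _ => by ring
    rw [funext e]
    refine tendsto_finsetSum _ fun i _ => tendsto_finsetSum _ fun i' _ => ?_
    have h0 : Tendsto (fun N : ℕ => (1 / 2 : ℝ) ^ N *
        bridge (2 ^ N * (i.1 : ℝ)) (2 ^ N * (i'.1 : ℝ))) atTop (𝓝 0) := by
      refine squeeze_zero_norm (fun N => ?_)
        (tendsto_pow_atTop_nhds_zero_of_lt_one (by norm_num) (by norm_num : (1 / 2 : ℝ) < 1))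
      rw [Real.norm_eq_abs, abs_mul, abs_pow, abs_of_pos (by norm_num : (0 : ℝ) < 1 / 2)]
      exact mul_le_of_le_one_right (by positivity) (abs_bridge_le (by positivity) (by positivity))
    simpa using ((tendsto_const_nhds (x := ((min i.1 i'.1 : ℝ≥0) : ℝ))).sub h0).const_mul
      (u i * u i')
  refine tendsto_nhds_unique (l := atTop) (f := fun N : ℕ =>
    ∫ ω, Complex.exp ((L fun i : I => partialSum N i.1 ω : ℝ) * Complex.I) ∂noiseLaw) ?_ ?_
  · refine tendsto_integral_of_dominated_convergence (fun _ => (1 : ℝ))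
      (fun N => Measurable.aestronglyMeasurable ?_) (integrable_const _)
      (fun N => Eventually.of_forall fun ω => (Complex.norm_exp_ofReal_mul_I _).le) ?_
    · have hv : Measurable fun ω => fun i : I => partialSum N i.1 ω :=
        measurable_pi_lambda _ fun i => measurable_partialSum N i.1
      exact (show Measurable fun x : I → ℝ => Complex.exp ((L x : ℝ) * Complex.I) by
        fun_prop).comp hv
    · filter_upwards [ae_all_iff.2 fun i : I => ae_tendsto i.1] with ω hω
      exact ((show Continuous fun x : I → ℝ => Complex.exp ((L x : ℝ) * Complex.I) by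
        fun_prop).tendsto
        (I.restrict (brownian · ω))).comp (tendsto_pi_nhds.2 hω)
  · simp only [hN]
    exact ((show Continuous fun v : ℝ => Complex.exp (-(v : ℂ) / 2) by fun_prop).tendsto V).comp hW

/-- **Brownian motion exists.** -/
theorem isBrownian : IsBrownianReal brownian noiseLaw where
  hasLaw := hasLaw_brownian
  cont := ae_continuous

end FA.Brownian
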