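import Mathlib.Algebra.Order.Floor.Semiring
import Mathlib.Algebra.Order.BigOperators.Group.Finset
import Mathlib.Analysis.Real.Sqrt
import Mathlib.Topology.Order.Lattice
import Mathlib.Topology.Algebra.Monoid
import Mathlib.Tactic

/-!
# The Faber–Schauder system and the covariance `min`

The products of the primitives of the first `N` levels of Haar functions sum to `min s t` less a
bridge term of size `2 ^ (-N)`.
-/

set_option autoImplicit false

noncomputable section

namespace FA.Brownian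

open Finset Function

/-- The ramp from `0` to `1` on `[0, 1]`. -/
def ramp (x : ℝ) : ℝ := max 0 (min 1 x)

/-- The tent on `[0, 1]`. -/
def tent (x : ℝ) : ℝ := max 0 (min (2 * x) (2 - 2 * x))

theorem continuous_ramp : Continuous ramp :=
  continuous_const.max (continuous_const.min continuous_id)

theorem continuous_tent : Continuous tent :=
  continuous_const.max
    ((continuous_const.mul continuous_id).min
      (continuous_const.sub (continuous_const.mul continuous_id)))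

theorem ramp_eq_zero {x : ℝ} (h : x ≤ 0) : ramp x = 0 :=
  max_eq_left ((min_le_right _ _).trans h)

theorem ramp_eq_one {x : ℝ} (h : 1 ≤ x) : ramp x = 1 := by
  rw [ramp, min_eq_left h, max_eq_right zero_le_one]

theorem ramp_eq_self {x : ℝ} (h0 : 0 ≤ x) (h1 : x ≤ 1) : ramp x = x := by
  rw [ramp, min_eq_right h1, max_eq_right h0]

theorem tent_eq_zero {x : ℝ} (h : x ≤ 0 ∨ 1 ≤ x) : tent x = 0 :=
  max_eq_left (by rcases h with h | h <;> [exact (min_le_left _ _).trans (by linarith);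
    exact (min_le_right _ _).trans (by linarith)])

theorem tent_nonneg (x : ℝ) : 0 ≤ tent x := le_max_left _ _

theorem tent_le_one (x : ℝ) : tent x ≤ 1 :=
  max_le zero_le_one (by
    rcases le_total (2 * x) 1 with h | h
    · exact (min_le_left _ _).trans h
    · exact (min_le_right _ _).trans (by linarith))

/-- A shifted tent vanishes off its cell. -/
theorem tent_sub_eq_zero {x : ℝ} (hx : 0 ≤ x) {k : ℕ} (hk : k ≠ ⌊x⌋₊) : tent (x - k) = 0 := by
  rcases Nat.lt_or_gt_of_ne hk with h | h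
  · have h1 : (k : ℝ) + 1 ≤ x := by
      have : ((k + 1 : ℕ) : ℝ) ≤ (⌊x⌋₊ : ℝ) := by exact_mod_cast h
      push_cast at this
      linarith [Nat.floor_le hx]
    exact tent_eq_zero (Or.inr (by linarith))
  · have h1 : x < k := (Nat.floor_lt hx).1 h
    exact tent_eq_zero (Or.inl (by linarith))

theorem sum_tent_mul {x : ℝ} (hx : 0 ≤ x) {K : ℕ} (hK : ⌊x⌋₊ < K) (a : ℕ → ℝ) :
    ∑ k ∈ range K, tent (x - k) * a k = tent (x - ⌊x⌋₊) * a ⌊x⌋₊ :=
  sum_eq_single_of_mem _ (mem_range.2 hK) fun k _ hk => by rw [tent_sub_eq_zero hx hk, zero_mul]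

/-- The covariance of a bridge in the cell of both points. -/
def bridge (x y : ℝ) : ℝ :=
  if ⌊x⌋₊ = ⌊y⌋₊ then min (x - ⌊x⌋₊) (y - ⌊y⌋₊) - (x - ⌊x⌋₊) * (y - ⌊y⌋₊) else 0

theorem abs_bridge_le {x y : ℝ} (hx : 0 ≤ x) (hy : 0 ≤ y) : |bridge x y| ≤ 1 := by
  rw [bridge]
  split_ifs
  · have := Nat.floor_le hx
    have := Nat.floor_le hy
    have := Nat.lt_floor_add_one x
    have := Nat.lt_floor_add_one y
    rw [abs_le]
    set a := x - ⌊x⌋₊
    set b := y - ⌊y⌋₊
    have ha : 0 ≤ a ∧ a ≤ 1 := ⟨by simp only [a]; linarith, by simp only [a]; linarith⟩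
    have hb : 0 ≤ b ∧ b ≤ 1 := ⟨by simp only [b]; linarith, by simp only [b]; linarith⟩
    have h1 := mul_le_mul ha.2 hb.2 hb.1 zero_le_one
    have h2 := mul_nonneg ha.1 hb.1
    constructor <;> linarith [min_le_left a b, le_min ha.1 hb.1]
  · simp

theorem sum_tent_tent {x y : ℝ} (hx : 0 ≤ x) (hy : 0 ≤ y) {K : ℕ} (hK : ⌊x⌋₊ < K) :
    ∑ k ∈ range K, tent (x - k) * tent (y - k) =
      if ⌊x⌋₊ = ⌊y⌋₊ then tent (x - ⌊x⌋₊) * tent (y - ⌊y⌋₊) else 0 := by
  rw [sum_tent_mul hx hK]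
  split_ifs with h
  · rw [h]
  · rw [tent_sub_eq_zero hy h, mul_zero]

theorem floor_double {x : ℝ} (hx : 0 ≤ x) :
    ⌊2 * x⌋₊ = 2 * ⌊x⌋₊ + if x - ⌊x⌋₊ < 1 / 2 then 0 else 1 := by
  have := Nat.floor_le hx
  have := Nat.lt_floor_add_one x
  rw [Nat.floor_eq_iff (by linarith)]
  split_ifs <;> push_cast <;> constructor <;> linarith

/-- **The recursion of the bridge.** -/
theorem bridge_eq {x y : ℝ} (hx : 0 ≤ x) (hy : 0 ≤ y) :
    bridge x y = (if ⌊x⌋₊ = ⌊y⌋₊ then tent (x - ⌊x⌋₊) * tent (y - ⌊y⌋₊) else 0) / 4 +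
      bridge (2 * x) (2 * y) / 2 := by
  simp only [bridge, floor_double hx, floor_double hy]
  have hx0 := Nat.floor_le hx
  have hy0 := Nat.floor_le hy
  have hx1 := Nat.lt_floor_add_one x
  have hy1 := Nat.lt_floor_add_one y
  by_cases h : ⌊x⌋₊ = ⌊y⌋₊
  · rw [if_pos h, if_pos h]
    set a := x - ⌊x⌋₊
    set b := y - ⌊y⌋₊
    have ha : 0 ≤ a ∧ a < 1 := ⟨by simp only [a]; linarith, by simp only [a]; linarith⟩
    have hb : 0 ≤ b ∧ b < 1 := ⟨by simp only [b]; linarith, by simp only [b]; linarith⟩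
    have t0 : ∀ c : ℝ, 0 ≤ c → c < 1 / 2 → tent c = 2 * c := fun c h1 h2 => by
      rw [tent, min_eq_left (by linarith), max_eq_right (by linarith)]
    have t1 : ∀ c : ℝ, 1 / 2 ≤ c → c < 1 → tent c = 2 - 2 * c := fun c h1 h2 => by
      rw [tent, min_eq_right (by linarith), max_eq_right (by linarith)]
    have hm : ∀ c d e : ℝ, min (2 * c - e) (2 * d - e) = 2 * min c d - e := fun c d e => by
      rw [mul_min_of_nonneg _ _ zero_le_two, min_sub_sub_right]
    by_cases hA : a < 1 / 2 <;> by_cases hB : b < 1 / 2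
    · rw [if_pos hA, if_pos hB, if_pos (by omega), t0 a ha.1 hA, t0 b hb.1 hB]
      push_cast
      rw [show 2 * x - (2 * (⌊x⌋₊ : ℝ) + 0) = 2 * a - 0 by simp only [a]; ring,
        show 2 * y - (2 * (⌊y⌋₊ : ℝ) + 0) = 2 * b - 0 by simp only [b]; ring, hm]
      ring
    · rw [if_pos hA, if_neg hB, if_neg (by omega), t0 a ha.1 hA, t1 b (not_lt.1 hB) hb.2,
        min_eq_left (by linarith : a ≤ b)]
      ring
    · rw [if_neg hA, if_pos hB, if_neg (by omega), t1 a (not_lt.1 hA) ha.2, t0 b hb.1 hB,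
        min_eq_right (by linarith : b ≤ a)]
      ring
    · rw [if_neg hA, if_neg hB, if_pos (by omega), t1 a (not_lt.1 hA) ha.2,
        t1 b (not_lt.1 hB) hb.2]
      push_cast
      rw [show 2 * x - (2 * (⌊x⌋₊ : ℝ) + 1) = 2 * a - 1 by simp only [a]; ring,
        show 2 * y - (2 * (⌊y⌋₊ : ℝ) + 1) = 2 * b - 1 by simp only [b]; ring, hm]
      ring
  · rw [if_neg h, if_neg h, if_neg]
    · norm_num
    · split_ifs <;> omega

end FA.Brownian
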