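import Mathlib.Probability.BrownianMotion.Basic
import Mathlib.Probability.Distributions.Gaussian.Real
import Mathlib.Analysis.Calculus.FDeriv.Basic

/-!
# Paley, Wiener and Zygmund: no point of differentiability

A Lipschitz bound to the right of `t` bounds three consecutive increments on each fine grid, and
independence makes this event negligible.
-/

set_option autoImplicit false

noncomputable section

namespace FA.Brownian

open MeasureTheory ProbabilityTheory Filter Topology Finset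
open scoped NNReal ENNReal

/-- The points of the grid of mesh `1 / n`. -/
def gridTime (n j : ℕ) : ℝ≥0 := (j : ℝ≥0) / n

theorem coe_gridTime (n j : ℕ) : (gridTime n j : ℝ) = (j : ℝ) / n := by
  simp [gridTime]

theorem monotone_gridTime (n : ℕ) : Monotone (gridTime n) := fun i j h => by
  unfold gridTime
  gcongr

theorem gaussianReal_interval_le {v : ℝ≥0} (hv : v ≠ 0) {a : ℝ} (ha : 0 ≤ a) :
    gaussianReal 0 v (Set.Icc (-a) a) ≤ ENNReal.ofReal (a / √v) := by
  have hv0 : (0 : ℝ) < v := NNReal.coe_pos.2 (pos_iff_ne_zero.2 hv)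
  rw [gaussianReal_apply _ hv]
  refine (setLIntegral_mono' measurableSet_Icc (g := fun _ => ENNReal.ofReal (√(2 * Real.pi * v))⁻¹)
    fun x _ => ENNReal.ofReal_le_ofReal ?_).trans ?_
  · rw [gaussianPDFReal]
    refine mul_le_of_le_one_right (by positivity) (Real.exp_le_one_iff.2 ?_)
    exact div_nonpos_of_nonpos_of_nonneg (neg_nonpos.2 (sq_nonneg _)) (by positivity)
  · rw [setLIntegral_const, Real.volume_Icc, ← ENNReal.ofReal_mul (by positivity)]
    refine ENNReal.ofReal_le_ofReal ?_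
    have h2 : 2 ≤ √(2 * Real.pi) := (Real.le_sqrt' two_pos).2 (by linarith [Real.two_le_pi])
    rw [Real.sqrt_mul (by positivity) (v : ℝ), mul_inv, div_eq_mul_inv a]
    calc (√(2 * Real.pi))⁻¹ * (√(v : ℝ))⁻¹ * (a - -a)
        = 2 / √(2 * Real.pi) * (a * (√(v : ℝ))⁻¹) := by ring
      _ ≤ 1 * (a * (√(v : ℝ))⁻¹) := by
          gcongr
          exact div_le_one_of_le₀ h2 (by positivity)
      _ = a * (√(v : ℝ))⁻¹ := one_mul _

variable {Ω : Type*} {mΩ : MeasurableSpace Ω} {P : Measure Ω} {B : ℝ≥0 → Ω → ℝ}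

/-- Some three consecutive increments on the grid, up to time `M`, are at most `L / n`. -/
def slowSet (B : ℝ≥0 → Ω → ℝ) (n M L : ℕ) : Set Ω :=
  ⋃ k ∈ range (M * n + 2), ⋂ i ∈ (univ : Finset (Fin 3)),
    (fun ω => B (gridTime n (k + i + 1)) ω - B (gridTime n (k + i)) ω) ⁻¹'
      Set.Icc (-((L : ℝ) / n)) ((L : ℝ) / n)

theorem measure_window_le (hB : IsPreBrownianReal B P) {n : ℕ} (hn : 0 < n) (k L : ℕ) :
    P (⋂ i ∈ (univ : Finset (Fin 3)),
      (fun ω => B (gridTime n (k + i + 1)) ω - B (gridTime n (k + i)) ω) ⁻¹'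
        Set.Icc (-((L : ℝ) / n)) ((L : ℝ) / n)) ≤
      ENNReal.ofReal (((L : ℝ) / √n) ^ 3) := by
  have hind := hB.hasIndepIncrements 3 (fun i : Fin 4 => gridTime n (k + i))
    fun i j h => monotone_gridTime n (by have : (i : ℕ) ≤ j := h; omega)
  simp only [Fin.val_succ, Fin.val_castSucc, ← add_assoc] at hind
  rw [hind.measure_inter_preimage_eq_mul univ fun i _ => measurableSet_Icc]
  refine (Finset.prod_le_prod (fun _ _ => zero_le) fun i _ => ?_).trans_eq
    (by rw [prod_const, card_univ, Fintype.card_fin, ENNReal.ofReal_pow (by positivity)])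
  have hlaw := hB.hasLaw_sub (gridTime n (k + i + 1)) (gridTime n (k + i))
  have hd : nndist (gridTime n (k + i + 1)).1 (gridTime n (k + i)).1 = (1 / n : ℝ≥0) := by
    refine NNReal.eq ?_
    simp only [coe_nndist, Real.dist_eq, NNReal.val_eq_coe, coe_gridTime]
    push_cast
    rw [div_sub_div_same, add_sub_cancel_left, abs_of_nonneg (by positivity)]
  rw [hd] at hlaw
  rw [show (fun ω => B (gridTime n (k + i + 1)) ω - B (gridTime n (k + i)) ω) =
      B (gridTime n (k + i + 1)) - B (gridTime n (k + i)) from rfl,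
    ← Measure.map_apply_of_aemeasurable hlaw.aemeasurable measurableSet_Icc, hlaw.map_eq]
  refine (gaussianReal_interval_le (by positivity) (by positivity)).trans_eq ?_
  congr 1
  push_cast
  rw [Real.sqrt_div' _ n.cast_nonneg, Real.sqrt_one]
  have hs : √(n : ℝ) * √(n : ℝ) = n := Real.mul_self_sqrt n.cast_nonneg
  field_simp
  linear_combination (L : ℝ) * hs

theorem measure_slowSet_le (hB : IsPreBrownianReal B P) {n : ℕ} (hn : 0 < n) (M L : ℕ) :
    P (slowSet B n M L) ≤ ENNReal.ofReal ((M + 2) * (L : ℝ) ^ 3 * (1 / √n)) := by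
  refine ((measure_biUnion_finset_le _ _).trans
    (sum_le_card_nsmul _ _ _ fun k _ => measure_window_le hB hn k L)).trans ?_
  rw [card_range, nsmul_eq_mul, ← ENNReal.ofReal_natCast, ← ENNReal.ofReal_mul (by positivity)]
  refine ENNReal.ofReal_le_ofReal ?_
  push_cast
  have hs : √(n : ℝ) * √(n : ℝ) = n := Real.mul_self_sqrt n.cast_nonneg
  have h1 : (1 : ℝ) ≤ n := by exact_mod_cast hn
  have hsp : 0 < √(n : ℝ) := Real.sqrt_pos.2 (by linarith)
  calc ((M : ℝ) * n + 2) * ((L : ℝ) / √n) ^ 3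
      ≤ (((M : ℝ) + 2) * n) * ((L : ℝ) / √n) ^ 3 := by
        gcongr
        linarith
    _ = ((M : ℝ) + 2) * (L : ℝ) ^ 3 * (1 / √n) := by
        field_simp
        linear_combination -(L : ℝ) ^ 3 * hs

/-- A right Lipschitz bound at some time puts the path in all late slow sets. -/
theorem mem_slowSet_of_bound {ω : Ω} {t : ℝ≥0} {C : ℝ}
    (h : ∀ᶠ s : ℝ≥0 in 𝓝[>] t, |B s ω - B t ω| ≤ C * ((s : ℝ) - t)) :
    ∃ M L N : ℕ, ∀ n, N ≤ n → ω ∈ slowSet B n M L := by
  obtain ⟨u, hu, hsub⟩ := mem_nhdsGT_iff_exists_Ioo_subset.1 h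
  have hu' : (t : ℝ) < u := NNReal.coe_lt_coe.2 hu
  obtain ⟨M, hM⟩ := exists_nat_ge (t : ℝ)
  obtain ⟨L, hL⟩ := exists_nat_ge (8 * |C|)
  obtain ⟨N, hN⟩ := exists_nat_gt (4 / ((u : ℝ) - t))
  refine ⟨M, L, N, fun n hn => ?_⟩
  have hn' : 4 / ((u : ℝ) - t) < n := hN.trans_le (by exact_mod_cast hn)
  have hn0 : (0 : ℝ) < n := lt_of_le_of_lt (div_nonneg (by norm_num) (by linarith)) hn'
  have h4 : (4 : ℝ) / n < u - t := by
    rw [div_lt_iff₀ hn0]
    rwa [div_lt_iff₀ (by linarith), mul_comm] at hn'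
  set k := ⌊(n : ℝ) * t⌋₊ + 1
  have hk1 : (n : ℝ) * t < k := by
    have := Nat.lt_floor_add_one ((n : ℝ) * t)
    simpa [k] using this
  have hk2 : (k : ℝ) ≤ (n : ℝ) * t + 1 := by
    have := Nat.floor_le (show 0 ≤ (n : ℝ) * t by positivity)
    simpa [k] using this
  have hkM : k < M * n + 2 := by
    have : ⌊(n : ℝ) * t⌋₊ ≤ M * n := Nat.floor_le_of_le (by
      push_cast
      rw [mul_comm (M : ℝ)]
      gcongr)
    omega
  have hpt : ∀ j : ℕ, j ≤ 3 →
      |B (gridTime n (k + j)) ω - B t ω| ≤ |C| * (4 / n) := by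
    intro j hj
    have hj' : (j : ℝ) ≤ 3 := by exact_mod_cast hj
    have hlo : (t : ℝ) < gridTime n (k + j) := by
      rw [coe_gridTime, lt_div_iff₀ hn0]
      push_cast
      nlinarith [j.cast_nonneg (α := ℝ)]
    have hhi : (gridTime n (k + j) : ℝ) - t ≤ 4 / n := by
      rw [coe_gridTime, sub_le_iff_le_add, div_add' _ _ _ hn0.ne', div_le_div_iff_of_pos_right hn0]
      push_cast
      linarith
    refine le_trans (hsub ⟨NNReal.coe_lt_coe.1 hlo, NNReal.coe_lt_coe.1 (by linarith)⟩) ?_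
    exact (mul_le_mul_of_nonneg_right (le_abs_self C) (by linarith)).trans
      (mul_le_mul_of_nonneg_left hhi (abs_nonneg C))
  refine Set.mem_iUnion₂.2 ⟨k, mem_range.2 hkM, Set.mem_iInter₂.2 fun i _ => ?_⟩
  refine Set.mem_preimage.2 (abs_le.1 ?_)
  have h1 := hpt (i + 1) i.isLt
  have h2 := hpt i (le_of_lt i.isLt)
  have h3 : |C| * (4 / n) + |C| * (4 / n) ≤ (L : ℝ) / n := by
    rw [show |C| * (4 / (n : ℝ)) + |C| * (4 / n) = 8 * |C| / n by ring]
    gcongr
  rw [← add_assoc] at h1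
  linarith [abs_sub_le (B (gridTime n (k + i + 1)) ω) (B t ω) (B (gridTime n (k + i)) ω),
    abs_sub_comm (B t ω) (B (gridTime n (k + i)) ω)]

/-- **Almost surely no time admits a right Lipschitz bound.** -/
theorem ae_not_rightLipschitz (hB : IsPreBrownianReal B P) :
    ∀ᵐ ω ∂P, ∀ t : ℝ≥0, ∀ C : ℝ,
      ¬ ∀ᶠ s : ℝ≥0 in 𝓝[>] t, |B s ω - B t ω| ≤ C * ((s : ℝ) - t) := by
  have hnull : P (⋃ (M : ℕ) (L : ℕ) (N : ℕ), ⋂ n ∈ Set.Ici N, slowSet B n M L) = 0 := by
    simp only [measure_iUnion_null_iff]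
    intro M L N
    refine le_antisymm ?_ zero_le
    have hlim : Tendsto (fun n : ℕ => ENNReal.ofReal ((M + 2) * (L : ℝ) ^ 3 * (1 / √n))) atTop
        (𝓝 0) := by
      rw [← ENNReal.ofReal_zero]
      refine ENNReal.tendsto_ofReal ?_
      simpa using
        ((Real.tendsto_sqrt_atTop.comp tendsto_natCast_atTop_atTop).inv_tendsto_atTop).const_mul
        (((M : ℝ) + 2) * (L : ℝ) ^ 3)
    refine ge_of_tendsto hlim ?_
    filter_upwards [eventually_ge_atTop (max N 1)] with n hn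
    exact (measure_mono (Set.biInter_subset_of_mem (Set.mem_Ici.2 (le_of_max_le_left hn)))).trans
      (measure_slowSet_le hB (le_of_max_le_right hn) M L)
  rw [ae_iff]
  refine measure_mono_null (fun ω hω => ?_) hnull
  obtain ⟨t, C, hC⟩ : ∃ t : ℝ≥0, ∃ C : ℝ,
      ∀ᶠ s : ℝ≥0 in 𝓝[>] t, |B s ω - B t ω| ≤ C * ((s : ℝ) - t) := by
    by_contra hne
    exact hω fun t C hC => hne ⟨t, C, hC⟩
  obtain ⟨M, L, N, hMLN⟩ := mem_slowSet_of_bound hC
  simp only [Set.mem_iUnion, Set.mem_iInter]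
  exact ⟨M, L, N, fun n hn => hMLN n hn⟩

/-- **Almost surely the path has no derivative at any time, not even a right one.** -/
theorem ae_not_differentiableWithinAt (hB : IsPreBrownianReal B P) :
    ∀ᵐ ω ∂P, ∀ t : ℝ≥0,
      ¬ DifferentiableWithinAt ℝ (fun s : ℝ => B s.toNNReal ω) (Set.Ici (t : ℝ)) t := by
  filter_upwards [ae_not_rightLipschitz hB] with ω hω t hd
  obtain ⟨C, hC⟩ := (DifferentiableWithinAt.hasFDerivWithinAt hd).isBigO_sub.bound
  refine hω t C ?_
  have hcoe : Tendsto (fun s : ℝ≥0 => (s : ℝ)) (𝓝[>] t) (𝓝[≥] (t : ℝ)) :=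
    tendsto_nhdsWithin_of_tendsto_nhds_of_eventually_within _
      ((NNReal.continuous_coe.tendsto t).mono_left nhdsWithin_le_nhds)
      (eventually_nhdsWithin_of_forall fun s hs =>
        (NNReal.coe_lt_coe.2 (Set.mem_Ioi.1 hs)).le)
  filter_upwards [hcoe.eventually hC, self_mem_nhdsWithin] with s hs hst
  have hpos : (0 : ℝ) ≤ (s : ℝ) - t := sub_nonneg.2 (NNReal.coe_le_coe.2 (Set.mem_Ioi.1 hst).le)
  simpa [Real.norm_eq_abs, abs_of_nonneg hpos] using hs

end FA.Brownian
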