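import Fermat.Agent.Brownian.Construction
import Mathlib.MeasureTheory.Constructions.Projective

/-!
# A version with continuous paths everywhere, and the Wiener law

On a measurable set of full measure the series converges locally uniformly; setting the process to
`0` elsewhere gives measurable marginals and continuous paths everywhere.
-/

set_option autoImplicit false

noncomputable section

namespace FA.Brownian

open MeasureTheory ProbabilityTheory Filter Topology
open scoped NNReal ENNReal

/-- **A Brownian motion with every path continuous and started at `0`.** -/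
theorem exists_version : ∃ B : ℝ≥0 → (ℕ × ℕ → ℝ) → ℝ, IsBrownianReal B noiseLaw ∧
    (∀ t, Measurable (B t)) ∧ (∀ ω, Continuous (B · ω)) ∧ ∀ ω, B 0 ω = 0 := by
  classical
  obtain ⟨G, hG, hGm, hGp⟩ := (ae_good.and ae_continuous).exists_measurable_mem
  refine ⟨fun t => G.indicator (brownian t), ⟨⟨fun I => ?_⟩, ?_⟩, fun t => ?_, fun ω => ?_,
    fun ω => ?_⟩
  · refine (hasLaw_brownian I).congr ?_
    filter_upwards [hG] with ω hω
    exact funext fun i => Set.indicator_of_mem hω _
  · filter_upwards [hG] with ω hω
    simpa only [Set.indicator_of_mem hω] using (hGp ω hω).2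
  · refine measurable_of_tendsto_metrizable (f := fun N => G.indicator (partialSum N t))
      (fun N => (measurable_partialSum N t).indicator hGm) (tendsto_pi_nhds.2 fun ω => ?_)
    by_cases hω : ω ∈ G
    · simp only [Set.indicator_of_mem hω]
      obtain ⟨u, hu, hb⟩ := (hGp ω hω).1 (⌊(t : ℝ)⌋₊ + 1)
      have hs : Summable fun n => level n t ω :=
        .of_norm_bounded hu fun n => hb n t t.coe_nonneg (Nat.lt_succ_self _)
      exact hs.hasSum.tendsto_sum_nat.const_add _
    · simp only [Set.indicator_of_notMem hω]
      exact tendsto_const_nhds
  · by_cases hω : ω ∈ G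
    · simpa only [Set.indicator_of_mem hω] using (hGp ω hω).2
    · simpa only [Set.indicator_of_notMem hω] using continuous_const
  · by_cases hω : ω ∈ G
    · simp [Set.indicator_of_mem hω, brownian, base, level, coef, ramp, tent]
    · simp [Set.indicator_of_notMem hω]

/-- **The Wiener law**: the finite dimensional laws have a projective limit. -/
theorem exists_wienerLaw : ∃ μ : Measure (ℝ≥0 → ℝ), IsProbabilityMeasure μ ∧
    IsProjectiveLimit μ BrownianReal.projectiveFamily := by
  obtain ⟨B, hB, hm, -, -⟩ := exists_version
  have hm' : Measurable fun ω t => B t ω := measurable_pi_lambda _ hm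
  refine ⟨noiseLaw.map fun ω t => B t ω, Measure.isProbabilityMeasure_map hm'.aemeasurable,
    fun I => ?_⟩
  rw [Measure.map_map (Finset.measurable_restrict I) hm']
  exact (hB.hasLaw I).map_eq

end FA.Brownian
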